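/-
S15, block N (local condition at the level prime), owner helper35.

Formal complements on the Weil pairing of `S19/Weil`: antisymmetry, additivity on the right,
multiples, values are roots of unity, compatibility in towers.
-/
import Fermat.Agent.S19.Weil.Pairing

set_option autoImplicit false

noncomputable section

namespace Fermat.Agent.S15.LocN

open AlgebraicCurve Fermat.Agent.S24.FF Fermat.Agent.S27 Fermat.Agent.S19.Weil

variable {K F : Type*} [Field K] [Field F] [Algebra K F] [IsAlgClosed K] [CharZero K] [IsFF1 K F]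
  [NonConst K F]

omit [IsAlgClosed K] [CharZero K] [IsFF1 K F] [NonConst K F] in
theorem zsmul_nsmul_eq_zero {n : ℕ} {x : Pic0 K F} (hx : (n : ℤ) • x = 0) (k : ℕ) :
    (n : ℤ) • (k • x) = 0 := by
  rw [← natCast_zsmul x k, ← mul_zsmul, mul_comm, mul_zsmul, hx, zsmul_zero]

theorem weil_swap {n : ℕ} (hn : 0 < n) {x y : Pic0 K F} (hx : (n : ℤ) • x = 0)
    (hy : (n : ℤ) • y = 0) : weil n y x = (weil n x y)⁻¹ := by
  obtain ⟨b, -⟩ := exists_torsRep hy (∅ : Finset (Place K F))
  obtain ⟨a, ha⟩ := exists_disjoint_torsRep hx b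
  rw [weil_eq hn a b ha, weil_eq hn b a ha.symm, weilRep_swap]

theorem weil_add_right {n : ℕ} (hn : 0 < n) {x y y' : Pic0 K F} (hx : (n : ℤ) • x = 0)
    (hy : (n : ℤ) • y = 0) (hy' : (n : ℤ) • y' = 0) :
    weil n x (y + y') = weil n x y * weil n x y' := by
  have hyy : (n : ℤ) • (y + y') = 0 := by rw [zsmul_add, hy, hy', add_zero]
  rw [weil_swap hn hyy hx, weil_add_left hn hy hy' hx, weil_swap hn hx hy, weil_swap hn hx hy',
    mul_inv, inv_inv, inv_inv]

theorem weil_zero_left {n : ℕ} (hn : 0 < n) {y : Pic0 K F} (hy : (n : ℤ) • y = 0) :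
    weil n (0 : Pic0 K F) y = 1 := by
  have h := weil_add_left hn (x := (0 : Pic0 K F)) (x' := 0) (zsmul_zero _) (zsmul_zero _) hy
  rw [add_zero] at h
  exact (mul_eq_left₀ (weil_ne_zero hn _ _)).mp h.symm

theorem weil_zero_right {n : ℕ} (hn : 0 < n) {x : Pic0 K F} (hx : (n : ℤ) • x = 0) :
    weil n x (0 : Pic0 K F) = 1 := by
  rw [weil_swap hn (zsmul_zero _) hx, weil_zero_left hn hx, inv_one]

theorem weil_nsmul_left {n : ℕ} (hn : 0 < n) {x y : Pic0 K F} (hx : (n : ℤ) • x = 0)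
    (hy : (n : ℤ) • y = 0) (k : ℕ) : weil n (k • x) y = weil n x y ^ k := by
  induction k with
  | zero => rw [zero_nsmul, pow_zero, weil_zero_left hn hy]
  | succ k ih =>
    have hk : (n : ℤ) • (k • x) = 0 := zsmul_nsmul_eq_zero hx k
    rw [succ_nsmul, weil_add_left hn hk hx hy, ih, pow_succ]

theorem weil_nsmul_right {n : ℕ} (hn : 0 < n) {x y : Pic0 K F} (hx : (n : ℤ) • x = 0)
    (hy : (n : ℤ) • y = 0) (k : ℕ) : weil n x (k • y) = weil n x y ^ k := by
  have hk : (n : ℤ) • (k • y) = 0 := zsmul_nsmul_eq_zero hy k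
  rw [weil_swap hn hk hx, weil_nsmul_left hn hy hx, weil_swap hn hx hy, inv_pow, inv_inv]

theorem weil_neg_left {n : ℕ} (hn : 0 < n) {x y : Pic0 K F} (hx : (n : ℤ) • x = 0)
    (hy : (n : ℤ) • y = 0) : weil n (-x) y = (weil n x y)⁻¹ := by
  have hx' : (n : ℤ) • (-x) = 0 := by rw [zsmul_neg, hx, neg_zero]
  have h := weil_add_left hn hx hx' hy
  rw [add_neg_cancel, weil_zero_left hn hy] at h
  exact (eq_inv_of_mul_eq_one_right h.symm)

theorem weil_neg_right {n : ℕ} (hn : 0 < n) {x y : Pic0 K F} (hx : (n : ℤ) • x = 0)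
    (hy : (n : ℤ) • y = 0) : weil n x (-y) = (weil n x y)⁻¹ := by
  have hy' : (n : ℤ) • (-y) = 0 := by rw [zsmul_neg, hy, neg_zero]
  rw [weil_swap hn hy' hx, weil_neg_left hn hy hx, weil_swap hn hx hy, inv_inv]

/-- The values of the Weil pairing are `n`-th roots of unity. -/
theorem weil_pow_eq_one {n : ℕ} (hn : 0 < n) {x y : Pic0 K F} (hx : (n : ℤ) • x = 0)
    (hy : (n : ℤ) • y = 0) : weil n x y ^ n = 1 := by
  rw [← weil_nsmul_left hn hx hy, ← natCast_zsmul, hx, weil_zero_left hn hy]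

/-- A representative at level `r * k` gives a representative of the `k`-th multiple at level
`r`. -/
def torsRepMul {r k : ℕ} {x : Pic0 K F} (a : TorsRep (r * k) x) : TorsRep r (k • x) where
  D := (k : ℤ) • a.D
  f := a.f
  deg := by rw [map_zsmul, a.deg, smul_zero]
  cls_eq := by rw [rep_cls_natCast_zsmul a.deg, a.cls_eq, natCast_zsmul]
  div := by
    have h := a.div
    rwa [Nat.cast_mul, mul_smul] at h

/-- **Compatibility of the Weil pairings in a tower.** -/
theorem weil_tower {r k : ℕ} (hr : 0 < r) (hk : 0 < k) {x y : Pic0 K F}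
    (hx : ((r * k : ℕ) : ℤ) • x = 0) (hy : ((r * k : ℕ) : ℤ) • y = 0) :
    weil r (k • x) (k • y) = weil (r * k) x y ^ k := by
  obtain ⟨b, -⟩ := exists_torsRep hy (∅ : Finset (Place K F))
  obtain ⟨a, ha⟩ := exists_disjoint_torsRep hx b
  have hdisj : Disjoint (torsRepMul a).D.support (torsRepMul b).D.support := by
    rw [Pairing.disjoint_iff]
    intro v hv
    have hv' : a.D v ≠ 0 := by
      intro h0
      apply hv
      show ((k : ℤ) • a.D) v = 0
      rw [Finsupp.smul_apply, h0, smul_zero]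
    show ((k : ℤ) • b.D) v = 0
    rw [Finsupp.smul_apply, Pairing.disjoint_iff.1 ha v hv', smul_zero]
  rw [weil_eq hr (torsRepMul a) (torsRepMul b) hdisj, weil_eq (Nat.mul_pos hr hk) a b ha, weilRep,
    weilRep]
  show evDiv a.f ((k : ℤ) • b.D) / evDiv b.f ((k : ℤ) • a.D) = _
  rw [evDiv_zsmul (a.unitOn b ha), evDiv_zsmul (b.unitOn a ha.symm), zpow_natCast, zpow_natCast,
    div_pow]

end Fermat.Agent.S15.LocN

end
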