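/-
S15, block N (local condition at the level prime), owner helper35.

Element level, level `M * q`, `q ∤ M` prime, `A ∣ q`, `τ` in the inertia group of `A`:
* `exists_cong1`     : if `n ∣ div (τ g / g)` then `τ g / g` is, up to an `n`-th power, `≡ 1` at the
                       two vertical valuations `v_∞` and `v_0 = v_∞ ∘ w`;
* `exists_eq_mul_pow`: (N-UNI) under the nodal target, `(τ' - 1) (τ - 1) = 0` on
                       `{g : n ∣ div (τ g / g)} / n`-th powers.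
-/
import Fermat.Agent.C1.Main
import Fermat.Agent.C1.Inertia
import Fermat.Agent.C1.Target
import Fermat.Agent.S36.Desc.FixedRep

set_option autoImplicit false

noncomputable section

namespace Fermat.Agent.S15.LocN

open ModularCurve AlgebraicCurve Fermat.Agent.S24 Fermat.Agent.S24.B Fermat.Agent.GAL
  Fermat.Agent.GAL.E Fermat.Agent.C1

/-- `τ g / g` is congruent to a constant at `v_∞`. -/
theorem isKinf_galF_div {A : ValuationSubring Kbar} {q : ℕ} (hq : q.Prime)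
    (hA : A.LiesOverPrime q) {N n : ℕ} [NeZero n] (τ : GQ) (hτ : τ ∈ A.inertiaSubgroupIn ℚ)
    (g : FN N) (hg : g ≠ 0) (u : kum N n)
    (hu : ((u : (FN N)ˣ) : FN N) = galF N τ g / g) : IsKinf A (cls u) := by
  obtain ⟨c, r, h⟩ := exists_redS hq hA g hg
  have h' := h.gal_inertia τ hτ
  have hd := h'.div h
  rw [div_self h.red_ne_zero] at hd
  refine isKinf_of_redS hq hA _ (τ c / c) 1 ?_
  rw [map_one, hu]
  convert hd using 1
  rw [← coe_galF]
  rfl

variable {M q : ℕ} [NeZero M] [NeZero q]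

/-- `τ g / g` is, up to an `n`-th power, `≡ 1` at both vertical valuations. -/
theorem exists_cong1 (D : ALData M q) {A : ValuationSubring Kbar} (hq : q.Prime)
    (hA : A.LiesOverPrime q) {n : ℕ} [NeZero n] (τ : GQ) (hτ : τ ∈ A.inertiaSubgroupIn ℚ)
    (g : FN (M * q)) (hg : g ≠ 0) (hk : IsKum (M * q) n (galF (M * q) τ g / g)) :
    ∃ v : FN (M * q), v ≠ 0 ∧ Cong1 A (M * q) (v ^ n * (galF (M * q) τ g / g)) ∧
      Cong1 A (M * q) (D.w (v ^ n * (galF (M * q) τ g / g))) := by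
  have hτg : galF (M * q) τ g ≠ 0 := (map_ne_zero_iff _ (galF (M * q) τ).injective).2 hg
  have h0 : galF (M * q) τ g / g ≠ 0 := div_ne_zero hτg hg
  let u₀ : kum (M * q) n := ⟨Units.mk0 _ h0, hk⟩
  have hu₀ : ((u₀ : (FN (M * q))ˣ) : FN (M * q)) = galF (M * q) τ g / g := rfl
  have h1 : IsKinf A (cls u₀) := isKinf_galF_div hq hA τ hτ g hg u₀ hu₀
  have hwg : D.w g ≠ 0 := (map_ne_zero_iff _ D.w_injective).mpr hg
  have h2 : IsKinf A (D.wW n (cls u₀)) := by
    refine isKinf_galF_div hq hA τ hτ (D.w g) hwg _ ?_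
    show D.w (galF (M * q) τ g / g) = _
    rw [map_div₀, D.w_galF hq]
  obtain ⟨u, hcls, hu1, hu2⟩ := isTor_of_isKinf D hq hA h1 h2
  obtain ⟨v, hv⟩ := S36.Desc.exists_eq_mul_pow_of_cls_eq u u₀ hcls
  rw [hu₀] at hv
  have hv0 : v ≠ 0 := by
    rintro rfl
    rw [zero_pow (NeZero.ne n), mul_zero] at hv
    exact (Units.ne_zero _) hv
  refine ⟨v, hv0, ?_, ?_⟩
  · rw [mul_comm (v ^ n), ← hv]; exact hu1
  · rw [mul_comm (v ^ n), ← hv]; exact hu2

/-- **(N-UNI)**  Under the nodal target, `(τ' - 1) (τ - 1) = 0` on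
`{g : n ∣ div (τ g / g)} / n`-th powers. -/
theorem exists_eq_mul_pow (hT : NodalTarget) (hq : q.Prime) (hqM : ¬ q ∣ M)
    (D : ALData M q) {A : ValuationSubring Kbar} (hA : A.LiesOverPrime q) {n : ℕ} (hn : 0 < n)
    (hqn : ¬ q ∣ n) (τ τ' : GQ) (hτ : τ ∈ A.inertiaSubgroupIn ℚ)
    (hτ' : τ' ∈ A.inertiaSubgroupIn ℚ) (g : FN (M * q)) (hg : g ≠ 0)
    (hk : IsKum (M * q) n (galF (M * q) τ g / g)) :
    ∃ v : FN (M * q),
      galF (M * q) τ' (galF (M * q) τ g / g) = (galF (M * q) τ g / g) * v ^ n := by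
  have : NeZero n := ⟨hn.ne'⟩
  obtain ⟨v, hv0, h1, h2⟩ := exists_cong1 D hq hA τ hτ g hg hk
  set u₀ := galF (M * q) τ g / g with hu₀
  have hkv : IsKum (M * q) n (v ^ n * u₀) := by
    intro w
    have hu0 : u₀ ≠ 0 := by
      intro h
      rw [h, mul_zero] at h1
      exact h1.ne_zero rfl
    rw [w.ord_mul (pow_ne_zero _ hv0) hu0, FF.ord_pow]
    exact dvd_add (dvd_mul_right _ _) (hk w)
  obtain ⟨v', hv'⟩ := (nod_of_target hT hq hqM D A hA n hn hqn).1 _ hkv h1 h2 τ' hτ'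
  rw [pow_one, pow_one, map_mul, map_pow] at hv'
  have hτv : galF (M * q) τ' v ≠ 0 := (map_ne_zero_iff _ (galF (M * q) τ').injective).2 hv0
  refine ⟨v * v' / galF (M * q) τ' v, ?_⟩
  have h3 : (galF (M * q) τ' v) ^ n ≠ 0 := pow_ne_zero _ hτv
  rw [div_pow, mul_pow]
  field_simp
  linear_combination hv'

end Fermat.Agent.S15.LocN

end
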