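/-
S15, block N (local condition at the level prime), owner helper35.

Jacobian level, level `M * q`, `q ∤ M` prime, `A ∣ q`.
* `IsTorJ D A n x`      : the class `x ∈ J[n]` has a representative `(E, u)`, `div u = n E`, with
                          `u ≡ 1` at the two vertical valuations ("toric part");
* `isTorJ_sub`          : `(τ - 1) y` is toric if `τ` is in the inertia group and `n y` is the class
                          of a `τ`-fixed divisor;
* `IsTorJ.frob_sq`      : under the nodal target `φ² = q²` on the toric part.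
-/
import Fermat.Agent.S15.LocN.WeilAux
import Fermat.Agent.S15.LocN.Elt
import Fermat.Agent.S17.W.Defs
import Fermat.Agent.S24.Export.Ramification

set_option autoImplicit false

noncomputable section

namespace Fermat.Agent.S15.LocN

open ModularCurve AlgebraicCurve Fermat.Agent.S24 Fermat.Agent.S24.B Fermat.Agent.GAL
  Fermat.Agent.GAL.E Fermat.Agent.C1 Fermat.Agent.S27 Fermat.Agent.S19.Weil Fermat.Agent.S17.W

instance instIsFF1 (N : ℕ) [NeZero N] : FF.IsFF1 Kbar (FN N) := Export.isFF1 N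

instance instNonConst (N : ℕ) [NeZero N] : NonConst Kbar (FN N) :=
  ⟨⟨jF N, Formal.transcendental_jF N⟩⟩

/-- If `n y` is the class of a `τ`-fixed divisor then `(τ - 1) y` is represented by
`(τ Y - Y, τ g / g)`. -/
theorem exists_torsRep_sub (N n : ℕ) [NeZero N] (τ : GQ) (D : Divisor Kbar (FN N))
    (hdeg : Divisor.degree D = 0) (hD : gal N τ • D = D) (y : JZero N)
    (hy : n • y = S27.cls D) :
    ∃ (g : FN N) (a : TorsRep n (τ • y - y)), g ≠ 0 ∧ a.f = galF N τ g / g := by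
  obtain ⟨Y, hY, rfl⟩ := S27.cls_surjective y
  have hnY : Divisor.degree (n • Y) = 0 := by rw [map_nsmul, hY, smul_zero]
  have h1 : S27.cls (n • Y) = S27.cls D := by rw [Pairing.cls_nsmul hY]; exact hy
  obtain ⟨g, hg⟩ := (cls_eq_cls_iff hnY hdeg).1 h1
  have hg' : IsDivOf (n • Y - D) g := hg
  have hG : IsDivOf (gal N τ • (n • Y - D)) (gal N τ • g) := IsDivOf.smul (gal N τ) hg'
  have hτg : galF N τ g ≠ 0 := (map_ne_zero_iff _ (galF N τ).injective).2 hg'.1
  refine ⟨g, ⟨gal N τ • Y - Y, galF N τ g / g, ?_, ?_, ?_⟩, hg'.1, rfl⟩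
  · rw [map_sub, SemilinearAut.degree_smul, hY, sub_zero]
  · rw [cls_sub (by rw [SemilinearAut.degree_smul, hY]) hY, cls_smul _ hY]
    rfl
  · refine ⟨div_ne_zero hτg hg'.1, fun v => ?_⟩
    have e1 : v.ord (galF N τ g) = (gal N τ • (n • Y - D)) v := (hG.2 v).symm
    have e2 : D ((gal N τ)⁻¹ • v) = D v := by
      rw [← SemilinearAut.divisor_smul_apply, hD]
    rw [div_eq_mul_inv, v.ord_mul hτg (inv_ne_zero hg'.1), v.ord_inv, e1, ← hg'.2,
      SemilinearAut.divisor_smul_apply]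
    simp only [Finsupp.smul_apply, Finsupp.sub_apply, SemilinearAut.divisor_smul_apply, e2,
      smul_eq_mul, nsmul_eq_mul]
    push_cast
    ring

variable {M q : ℕ} [NeZero M] [NeZero q]

/-- The toric part of `J[n]` at `A`. -/
def IsTorJ (D : ALData M q) (A : ValuationSubring Kbar) (n : ℕ) (x : JZero (M * q)) : Prop :=
  ∃ a : TorsRep n x, Cong1 A (M * q) a.f ∧ Cong1 A (M * q) (D.w a.f)

theorem TorsRep.isKum {N n : ℕ} {x : JZero N} (a : TorsRep n x) : IsKum N n a.f := by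
  intro v
  rw [← a.div.2 v, Finsupp.smul_apply, smul_eq_mul]
  exact dvd_mul_right _ _

theorem IsTorJ.zsmul_eq_zero {D : ALData M q} {A : ValuationSubring Kbar} {n : ℕ}
    {x : JZero (M * q)} (h : IsTorJ D A n x) : (n : ℤ) • x = 0 := by
  obtain ⟨a, -, -⟩ := h
  exact a.zsmul_eq_zero

/-- **(N-TOR 1)** `(τ - 1) y` is toric. -/
theorem isTorJ_sub (D : ALData M q) {A : ValuationSubring Kbar} (hq : q.Prime)
    (hA : A.LiesOverPrime q) {n : ℕ} (hn : 0 < n) (τ : GQ) (hτ : τ ∈ A.inertiaSubgroupIn ℚ)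
    (D₀ : Divisor Kbar (FN (M * q))) (hdeg : Divisor.degree D₀ = 0)
    (hD₀ : gal (M * q) τ • D₀ = D₀) (y : JZero (M * q)) (hy : n • y = S27.cls D₀) :
    IsTorJ D A n (τ • y - y) := by
  have : NeZero n := ⟨hn.ne'⟩
  obtain ⟨g, a, hg, haf⟩ := exists_torsRep_sub (M * q) n τ D₀ hdeg hD₀ y hy
  have hk : IsKum (M * q) n (galF (M * q) τ g / g) := haf ▸ TorsRep.isKum a
  obtain ⟨v, hv0, h1, h2⟩ := exists_cong1 D hq hA τ hτ g hg hk
  obtain ⟨G, hG⟩ := exists_isDivOf (K := Kbar) v hv0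
  refine ⟨a.move v G hG, ?_, ?_⟩
  · show Cong1 A (M * q) (v ^ n * a.f)
    rw [haf]; exact h1
  · show Cong1 A (M * q) (D.w (v ^ n * a.f))
    rw [haf]; exact h2

/-- **(N-TOR 2)** Under the nodal target, `φ² = q²` on the toric part. -/
theorem IsTorJ.frob_sq (hT : NodalTarget) (hq : q.Prime) (hqM : ¬ q ∣ M) {D : ALData M q}
    {A : ValuationSubring Kbar} (hA : A.LiesOverPrime q) {n : ℕ} (hn : 0 < n) (hqn : ¬ q ∣ n)
    (σ : GQ) (hσ : A.IsFrobeniusAt σ q) {x : JZero (M * q)} (hx : IsTorJ D A n x) :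
    σ • σ • x = (q ^ 2) • x := by
  obtain ⟨a, h1, h2⟩ := hx
  obtain ⟨v, hv⟩ := (nod_of_target hT hq hqM D A hA n hn hqn).2 _ (TorsRep.isKum a) h1 h2 σ hσ
  rw [pow_one, pow_one] at hv
  have hf0 : a.f ≠ 0 := a.div.1
  have hv0 : v ≠ 0 := by
    rintro rfl
    rw [zero_pow hn.ne', mul_zero] at hv
    exact (map_ne_zero_iff _ (galF (M * q) σ).injective).2
      ((map_ne_zero_iff _ (galF (M * q) σ).injective).2 hf0) hv
  obtain ⟨V, hV⟩ := exists_isDivOf (K := Kbar) v hv0
  have hG : IsDivOf (gal (M * q) σ • gal (M * q) σ • ((n : ℤ) • a.D))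
      (gal (M * q) σ • gal (M * q) σ • a.f) := IsDivOf.smul _ (IsDivOf.smul _ a.div)
  have hn' : (n : ℤ) ≠ 0 := Nat.cast_ne_zero.mpr hn.ne'
  have key : gal (M * q) σ • gal (M * q) σ • a.D = (q ^ 2) • a.D + V := by
    refine Finsupp.ext fun w => ?_
    have e1 := hG.2 w
    have e2 : gal (M * q) σ • gal (M * q) σ • a.f = a.f ^ (q ^ 2) * v ^ n := hv
    rw [e2, w.ord_mul (pow_ne_zero _ hf0) (pow_ne_zero _ hv0), FF.ord_pow, FF.ord_pow, ← a.div.2,
      ← hV.2] at e1
    simp only [SemilinearAut.divisor_smul_apply, Finsupp.smul_apply, smul_eq_mul] at e1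
    apply mul_left_cancel₀ hn'
    simp only [SemilinearAut.divisor_smul_apply, Finsupp.smul_apply, Finsupp.add_apply,
      smul_eq_mul, nsmul_eq_mul]
    rw [e1]
    push_cast
    ring
  have hdeg1 : Divisor.degree (gal (M * q) σ • a.D) = 0 := by
    rw [SemilinearAut.degree_smul, a.deg]
  have e3 : σ • σ • x = S27.cls (gal (M * q) σ • gal (M * q) σ • a.D) := by
    rw [cls_smul _ hdeg1, cls_smul _ a.deg, a.cls_eq]
    rfl
  rw [e3, key, cls_add (by rw [map_nsmul, a.deg, smul_zero]) hV.degree, Pairing.cls_nsmul a.deg,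
    a.cls_eq, rep_cls_eq_zero hV, add_zero]

end Fermat.Agent.S15.LocN

end
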