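/-
S15, block N (local condition at the level prime), owner helper35.

**(N-ISO)**  Under the nodal target: for `τ, τ'` in the inertia group at `q ∥ M q` and `R, R'` with
`r R`, `r R'` rational, the Weil pairing `e_r ((τ - 1) R, (τ' - 1) R')` is trivial.

Proof ("weights", divisibility for free): divide `R = r^m R_m`; `x_m = (τ - 1) R_m` is toric of
level `r^(m+1)`, `φ² = q²` on the toric part, so `e (x_m, y_m)^(q⁴) = φ² e (x_m, y_m) =
e (x_m, y_m)^(q²)`; for `r^(m+1) > q⁴ - q²` this forces `e (x_m, y_m)^(r^m) = 1`, which is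
`e_r ((τ - 1) R, (τ' - 1) R')`.
-/
import Fermat.Agent.S15.LocN.Jac
import Fermat.Agent.C1.Mod.Main
import Fermat.Agent.S17.W.FixedDiv
import Fermat.Agent.S17.W.Div
import Fermat.Agent.S58.Zeta
import Fermat.Agent.Lib.Frobenius

set_option autoImplicit false

noncomputable section

namespace Fermat.Agent.S15.LocN

open ModularCurve AlgebraicCurve Fermat.Agent.S24 Fermat.Agent.S24.B Fermat.Agent.GAL
  Fermat.Agent.GAL.E Fermat.Agent.C1 Fermat.Agent.S27 Fermat.Agent.S19.Weil Fermat.Agent.S17.W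

theorem gal_zsmul {N : ℕ} (σ : GQ) (k : ℤ) (x : JZero N) : σ • (k • x) = k • (σ • x) :=
  (DistribSMul.toAddMonoidHom (JZero N) σ).map_zsmul k x

theorem gal_nsmul {N : ℕ} (σ : GQ) (k : ℕ) (x : JZero N) : σ • (k • x) = k • (σ • x) :=
  (DistribSMul.toAddMonoidHom (JZero N) σ).map_nsmul k x

theorem gal_zero {N : ℕ} (σ : GQ) : σ • (0 : JZero N) = 0 :=
  (DistribSMul.toAddMonoidHom (JZero N) σ).map_zero

/-- Galois equivariance of the Weil pairing on `J₀(N)`. -/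
theorem weil_gal {N : ℕ} [NeZero N] {n : ℕ} (hn : 0 < n) (σ : GQ) {x y : JZero N}
    (hx : (n : ℤ) • x = 0) (hy : (n : ℤ) • y = 0) :
    weil n (σ • x) (σ • y) = σ (weil n x y) :=
  weil_smul hn (gal N σ) hx hy

variable {M q : ℕ} [NeZero M] [NeZero q]

/-- Weights: the pairing of two toric classes satisfies `ζ^(q⁴) = ζ^(q²)`. -/
theorem weil_pow_of_isTorJ (hT : NodalTarget) (hq : q.Prime) (hqM : ¬ q ∣ M) {D : ALData M q}
    {A : ValuationSubring Kbar} (hA : A.LiesOverPrime q) {n : ℕ} (hn : 0 < n) (hqn : ¬ q ∣ n)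
    {x y : JZero (M * q)} (hx : IsTorJ D A n x) (hy : IsTorJ D A n y) :
    (weil n x y ^ q ^ 2) ^ q ^ 2 = weil n x y ^ q ^ 2 := by
  obtain ⟨σ, hσ⟩ := Lib.Frobenius.exists_isFrobeniusAt A q hq hA
  have hx0 := hx.zsmul_eq_zero
  have hy0 := hy.zsmul_eq_zero
  have hσx : (n : ℤ) • (σ • x) = 0 := by rw [← gal_zsmul, hx0, gal_zero]
  have hσy : (n : ℤ) • (σ • y) = 0 := by rw [← gal_zsmul, hy0, gal_zero]
  have h1 : weil n (σ • σ • x) (σ • σ • y) = σ (σ (weil n x y)) := by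
    rw [weil_gal hn σ hσx hσy, weil_gal hn σ hx0 hy0]
  have hζ : weil n x y ^ n = 1 := weil_pow_eq_one hn hx0 hy0
  have hζ' : (weil n x y ^ q) ^ n = 1 := by rw [← pow_mul, mul_comm q n, pow_mul, hζ, one_pow]
  rw [hx.frob_sq hT hq hqM hA hn hqn σ hσ, hy.frob_sq hT hq hqM hA hn hqn σ hσ,
    weil_nsmul_left hn hx0 (zsmul_nsmul_eq_zero hy0 _), weil_nsmul_right hn hx0 hy0,
    S58.frob_zeta hq A hA σ hσ hqn _ hζ, S58.frob_zeta hq A hA σ hσ hqn _ hζ',
    ← pow_mul _ q q, ← sq] at h1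
  exact h1

/-- Arithmetic: a root of unity of order a power of `r` with `ζ^(c + d) = ζ^d`, `0 < c < r^(m+1)`,
is killed by `r^m`. -/
theorem pow_eq_one_of_weights {K : Type*} [Field K] {ζ : K} {r m c : ℕ} (hr : r.Prime)
    (h1 : ζ ^ (r * r ^ m) = 1) (hc : 0 < c) (hcm : c < r * r ^ m) (h2 : ζ ^ c = 1) :
    ζ ^ (r ^ m) = 1 := by
  have hd1 : orderOf ζ ∣ r ^ (m + 1) := by
    rw [pow_succ, mul_comm]
    exact orderOf_dvd_of_pow_eq_one h1
  have hd2 : orderOf ζ ∣ c := orderOf_dvd_of_pow_eq_one h2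
  obtain ⟨j, hj, hjo⟩ := (Nat.dvd_prime_pow hr).1 hd1
  have hjm : j ≤ m := by
    by_contra hcon
    have hj' : j = m + 1 := by omega
    rw [hjo, hj', pow_succ, mul_comm] at hd2
    exact absurd (Nat.le_of_dvd hc hd2) (not_le.mpr hcm)
  apply orderOf_dvd_iff_pow_eq_one.1
  rw [hjo]
  exact pow_dvd_pow r hjm

/-- **(N-ISO)**, level `M * q`. -/
theorem weil_inertia_eq_one_mul (hT : NodalTarget) (hq : q.Prime) (hqM : ¬ q ∣ M)
    {A : ValuationSubring Kbar} (hA : A.LiesOverPrime q) {r : ℕ} (hr : r.Prime) (hrq : r ≠ q)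
    (R R' : JZero (M * q)) (hR : ∀ σ : GQ, σ • (r • R) = r • R)
    (hR' : ∀ σ : GQ, σ • (r • R') = r • R') (τ τ' : GQ) (hτ : τ ∈ A.inertiaSubgroupIn ℚ)
    (hτ' : τ' ∈ A.inertiaSubgroupIn ℚ) : weil r (τ • R - R) (τ' • R' - R') = 1 := by
  obtain ⟨D⟩ := nonempty_alData M q hq hqM
  have : NeZero (M * q) := ⟨mul_ne_zero (NeZero.ne M) (NeZero.ne q)⟩
  -- the exponent
  set c : ℕ := (q ^ 2) * (q ^ 2) - q ^ 2 with hc
  have hq2 : 1 < q ^ 2 := Nat.one_lt_pow two_ne_zero hq.one_lt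
  have hcpos : 0 < c := by
    have : q ^ 2 * 1 < q ^ 2 * q ^ 2 := Nat.mul_lt_mul_of_pos_left hq2 (by omega)
    omega
  set k : ℕ := r ^ c with hk
  have hkpos : 0 < k := pow_pos hr.pos _
  have hn : 0 < r * k := Nat.mul_pos hr.pos hkpos
  have hck : c < r * k := by
    have h1 : c < k := Nat.lt_pow_self hr.one_lt
    have h2 : 1 * k ≤ r * k := Nat.mul_le_mul_right _ hr.pos
    omega
  have hqn : ¬ q ∣ r * k := by
    intro h
    have h1 : q ∣ r ^ (c + 1) := by rwa [pow_succ, mul_comm]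
    exact hrq ((Nat.prime_dvd_prime_iff_eq hq hr).1 (hq.dvd_of_dvd_pow h1)).symm
  -- toric classes
  have tor : ∀ (S : JZero (M * q)), (∀ σ : GQ, σ • (r • S) = r • S) → ∀ t : GQ,
      t ∈ A.inertiaSubgroupIn ℚ →
      ∃ z : JZero (M * q), IsTorJ D A (r * k) z ∧ k • z = t • S - S := by
    intro S hS t ht
    obtain ⟨Sm, hSm⟩ := exists_nsmul_eq_JZero (M * q) k hkpos S
    obtain ⟨D₀, hD₀, hfix⟩ := exists_fixed_divisor (M * q) (r • S) hS
    refine ⟨t • Sm - Sm, isTorJ_sub D hq hA hn t ht (D₀ : Divisor Kbar (FN (M * q))) D₀.2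
      (hfix t) Sm ?_, ?_⟩
    · rw [mul_comm r k, mul_nsmul, hSm, ← hD₀, cls_eq_mk D₀.2]
    · rw [nsmul_sub, ← gal_nsmul, hSm]
  obtain ⟨x, hx, hxR⟩ := tor R hR τ hτ
  obtain ⟨y, hy, hyR⟩ := tor R' hR' τ' hτ'
  have hx0 := hx.zsmul_eq_zero
  have hy0 := hy.zsmul_eq_zero
  rw [← hxR, ← hyR, weil_tower hr.pos hkpos hx0 hy0]
  have hζ0 : weil (r * k) x y ≠ 0 := weil_ne_zero hn x y
  have hw := weil_pow_of_isTorJ hT hq hqM hA hn hqn hx hy
  have h2 : weil (r * k) x y ^ c = 1 := by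
    have h3 : weil (r * k) x y ^ (c + q ^ 2) = weil (r * k) x y ^ q ^ 2 := by
      rw [← pow_mul] at hw
      have : c + q ^ 2 = q ^ 2 * q ^ 2 := by omega
      rw [this]
      exact hw
    rw [pow_add] at h3
    exact (mul_eq_right₀ (pow_ne_zero _ hζ0)).mp h3
  exact pow_eq_one_of_weights hr (weil_pow_eq_one hn hx0 hy0) hcpos hck h2

/-- **(N-ISO)**, prime level. -/
theorem weil_inertia_eq_one (hT : NodalTarget) {N : ℕ} [NeZero N] (hN : N.Prime)
    {A : ValuationSubring Kbar} (hA : A.LiesOverPrime N) {r : ℕ} (hr : r.Prime) (hrN : r ≠ N)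
    (R R' : JZero N) (hR : ∀ σ : GQ, σ • (r • R) = r • R)
    (hR' : ∀ σ : GQ, σ • (r • R') = r • R') (τ τ' : GQ) (hτ : τ ∈ A.inertiaSubgroupIn ℚ)
    (hτ' : τ' ∈ A.inertiaSubgroupIn ℚ) : weil r (τ • R - R) (τ' • R' - R') = 1 := by
  have key : ∀ L : ℕ, L = 1 * N → ∀ (R R' : JZero L), (∀ σ : GQ, σ • (r • R) = r • R) →
      (∀ σ : GQ, σ • (r • R') = r • R') → weil r (τ • R - R) (τ' • R' - R') = 1 := by
    rintro _ rfl R R' hR hR'
    exact weil_inertia_eq_one_mul (M := 1) (q := N) hT hN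
      (fun h => hN.one_lt.ne' (Nat.dvd_one.1 h)) hA hr hrN R R' hR hR' τ τ' hτ hτ'
  exact key N (one_mul N).symm R R' hR hR'

end Fermat.Agent.S15.LocN

end
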