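/-
S15, block N (local condition at the level prime), owner helper35.

The contract `S15.LocN N r` of `S15/Contracts.lean`, from the nodal target of project C1.
-/
import Fermat.Agent.S15.Contracts
import Fermat.Agent.S15.LocN.Main

set_option autoImplicit false

namespace Fermat.Agent.S15

/-- **The contract `LocN`.** -/
theorem locN_of_nodalTarget (hT : C1.NodalTarget) {N : ℕ} [NeZero N] (hN : N.Prime) {r : ℕ}
    (hr : r.Prime) (hrN : r ≠ N) : LocN N r :=
  fun _ hA τ hτ τ' hτ' R R' hR hR' =>
    LocN.weil_inertia_eq_one hT hN hA hr hrN R R' hR hR' τ τ' hτ hτ'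

end Fermat.Agent.S15
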