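/-
S15, block N (local condition at the level prime), owner helper35.

The contract `S15.LocN N r`, unconditionally (the nodal target of project C1 is a theorem).
-/
import Fermat.Agent.S15.LocN.Contract
import Fermat.Agent.S34.Nodal.Inst.Top.Close

set_option autoImplicit false

namespace Fermat.Agent.S15

/-- **The contract `LocN`**, unconditionally. -/
theorem locN {N : ℕ} [NeZero N] (hN : N.Prime) {r : ℕ} (hr : r.Prime) (hrN : r ≠ N) : LocN N r :=
  locN_of_nodalTarget S34.Nodal.Inst.Top.nodalTarget hN hr hrN

end Fermat.Agent.S15
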